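import Fermat.Agent.S59.TW.Spec

/-!
# S59, cell TW, layer 2, LEAF INX (helper427): `TW.InertiaExistsStatement`

Inertia values exist: if the characteristic polynomial of `ρ̄(φ)` is `(X - ā₀)(X - β)` with
`ā₀ ≠ β`, then the characteristic polynomial of `ρ(φ)` factors as `(X - a)(X - b)` with
`a ≡ a₀` and `a - b` a unit (Hensel's lemma in the complete local ring `A`), and
`w := (a - b)⁻¹ (tr ρ(φσ) - b tr ρ(σ))` is an inertia value.

* `exists_factor_of_residue_factor` : Hensel for a monic quadratic polynomial (Mathlib only).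
* `charpoly_residual` : `charpoly ρ̄(φ)` is the reduction of `charpoly ρ(φ)`.
* `inertiaExists : InertiaExistsStatement` (verbatim).
-/

set_option autoImplicit false

open Polynomial IsLocalRing

namespace Fermat.Agent.S59.TW.H427

open Fermat.Agent.S59.Arch Fermat.Agent.S59.TW.H959 Fermat.Agent.S59.TW

section Hensel

variable {A : Type*} [CommRing A] [IsLocalRing A] [IsAdicComplete (maximalIdeal A) A]

/-- **Hensel's lemma for a monic quadratic polynomial** whose reduction has two distinct roots
`ā₀ ≠ β`: it factors as `(X - a)(X - b)` with `a ≡ a₀` and `a - b` a unit. -/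
theorem exists_factor_of_residue_factor (f : A[X]) (hf : f.Monic) (hdeg : f.natDegree = 2)
    (a₀ : A) (β : ResidueField A) (hne : residue A a₀ ≠ β)
    (hfac : f.map (residue A) = (X - C (residue A a₀)) * (X - C β)) :
    ∃ a b : A, a - a₀ ∈ maximalIdeal A ∧ IsUnit (a - b) ∧ f = (X - C a) * (X - C b) := by
  have h₁ : f.eval a₀ ∈ maximalIdeal A := by
    rw [← residue_eq_zero_iff, ← Polynomial.eval₂_at_apply, ← Polynomial.eval_map, hfac]
    simp
  have h₂ : IsUnit (Ideal.Quotient.mk (maximalIdeal A) (f.derivative.eval a₀)) := by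
    have h : residue A (f.derivative.eval a₀) = residue A a₀ - β := by
      rw [← Polynomial.eval₂_at_apply, ← Polynomial.eval_map, ← Polynomial.derivative_map, hfac]
      simp
    have h' : residue A (f.derivative.eval a₀) ≠ 0 := by
      rw [h]; exact sub_ne_zero.mpr hne
    exact IsUnit.mk0 _ h'
  obtain ⟨a, ha, haa₀⟩ := HenselianRing.is_henselian f hf a₀ h₁ h₂
  have hXa : (X - C a : A[X]).Monic := monic_X_sub_C a
  set g : A[X] := f /ₘ (X - C a) with hg
  have hfg : (X - C a) * g = f := mul_divByMonic_eq_iff_isRoot.mpr ha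
  have hgm : g.Monic := by
    have : ((X - C a) * g).Monic := by rw [hfg]; exact hf
    exact hXa.of_mul_monic_left this
  have hgdeg : g.natDegree = 1 := by
    rw [hg, natDegree_divByMonic f hXa, hdeg, natDegree_X_sub_C]
  have hgX : g = X - C (-(g.coeff 0)) := by
    rw [C_neg, sub_neg_eq_add]
    exact hgm.eq_X_add_C hgdeg
  set b : A := -(g.coeff 0) with hb
  have hres : residue A a = residue A a₀ := by
    rw [← sub_eq_zero, ← map_sub, residue_eq_zero_iff]; exact haa₀
  have hbβ : residue A b = β := by
    have h1 : f.map (residue A) = (X - C (residue A a₀)) * (X - C (residue A b)) := by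
      rw [← hfg, hgX, Polynomial.map_mul, Polynomial.map_sub, Polynomial.map_sub, map_X, map_C,
        map_C, hres]
    rw [hfac] at h1
    have h2 := mul_left_cancel₀ (X_sub_C_ne_zero (residue A a₀)) h1
    have h3 : (C β : (ResidueField A)[X]) = C (residue A b) := by
      have := congrArg (fun q => (X : (ResidueField A)[X]) - q) h2
      simpa using this
    exact (C_injective h3).symm
  refine ⟨a, b, haa₀, ?_, ?_⟩
  · have hne' : residue A (a - b) ≠ 0 := by
      rw [map_sub, hres, hbβ]; exact sub_ne_zero.mpr hne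
    by_contra hnu
    exact hne' ((residue_eq_zero_iff _).mpr ((mem_maximalIdeal _).mpr hnu))
  · rw [← hfg, hgX]

end Hensel

section Residual

variable {A : Type} [CommRing A] [IsLocalRing A]

/-- The characteristic polynomial of `ρ̄(φ)` is the reduction of that of `ρ(φ)`. -/
theorem charpoly_residual (ρ : GaloisRepAdic A) (φ : GQ) :
    LinearMap.charpoly (ρ.residual.ρ φ) = (LinearMap.charpoly (ρ.ρ φ)).map (residue A) :=
  LinearMap.charpoly_baseChange (A := ResidueField A) (ρ.ρ φ)

end Residual

/-- **LEAF INX** of cell TW, layer 2 (`TW.InertiaExistsStatement`, verbatim). -/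
theorem inertiaExists : InertiaExistsStatement := by
  intro A _ _ _ _ ρ φ σ a₀ β hne hchar
  have hmap : (LinearMap.charpoly (ρ.ρ φ)).map (residue A) =
      (X - C (residue A a₀)) * (X - C β) := by
    rw [← hchar, charpoly_residual]
  have hdeg : (LinearMap.charpoly (ρ.ρ φ)).natDegree = 2 := by
    rw [LinearMap.charpoly_natDegree, ρ.finrank_eq]
  obtain ⟨a, b, haa₀, hu, hfac⟩ := exists_factor_of_residue_factor _
    (LinearMap.charpoly_monic _) hdeg a₀ β hne hmap
  obtain ⟨u, hu'⟩ := hu
  refine ⟨↑u⁻¹ * (ρ.trace (φ * σ) - b * ρ.trace σ), a, b, haa₀, ⟨u, hu'⟩, hfac, ?_⟩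
  rw [← hu', ← mul_assoc, Units.mul_inv, one_mul]

end Fermat.Agent.S59.TW.H427
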