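import Fermat.Agent.S59.H525.FreeTransfer

/-!
# S59, cell TW, layer 2 (helper427): the algebraic core of CMPL

`V` a module over an `𝒪`-algebra `T`, `dia : ∏ G_j → Aut_T V` such that the `dia (g^e) b_i`
(`e_j < p^(m_j)`) form an `𝒪`-basis of `V` (the shape of `TW.AutLevel.free`), `w ∈ T` with
`w^(p^n') = 1` and `(w - X)(w X - 1) = 0` on `V` for `X = dia (g_j)`.  Then
`(w - 1) V = (X - 1) V` (`cmp_core`).

Mathlib + `S59/H525/{TwoStructure,FreeTransfer}.lean` only.
-/

set_option autoImplicit false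
set_option linter.unusedSectionVars false
set_option linter.unusedVariables false
set_option linter.style.haveILetI false

namespace Fermat.Agent.S59.TW.H427

section Dia

variable {T V : Type*} [CommRing T] [AddCommGroup V] [Module T V]
variable {r : ℕ} {G : Fin r → Type*} [∀ j, CommGroup (G j)]

/-- Raising the exponent at `j` by `k` multiplies by `dia (g_j) ^ k`. -/
theorem dia_update_add (dia : (∀ j : Fin r, G j) →* Module.End T V) (g : ∀ j : Fin r, G j)
    (e : Fin r → ℕ) (j : Fin r) (a k : ℕ) :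
    dia (fun i => g i ^ (Function.update e j (a + k) i)) =
      dia (Pi.mulSingle j (g j)) ^ k * dia (fun i => g i ^ (Function.update e j a i)) := by
  have h : (fun i => g i ^ (Function.update e j (a + k) i)) =
      (Pi.mulSingle j (g j)) ^ k * (fun i => g i ^ (Function.update e j a i)) := by
    funext i
    by_cases hi : i = j
    · subst hi
      simp [pow_add, mul_comm]
    · simp [Function.update_of_ne hi, Pi.mulSingle_eq_of_ne hi]
  rw [h, map_mul, map_pow]

/-- The operator `dia (g^e)` only depends on `e_j` modulo `N` if `dia (g_j) ^ N = 1`. -/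
theorem dia_update_mod (dia : (∀ j : Fin r, G j) →* Module.End T V) (g : ∀ j : Fin r, G j)
    (e : Fin r → ℕ) (j : Fin r) (N : ℕ) (hN : dia (Pi.mulSingle j (g j)) ^ N = 1) (a : ℕ) :
    dia (fun i => g i ^ (Function.update e j a i)) =
      dia (fun i => g i ^ (Function.update e j (a % N) i)) := by
  conv_lhs => rw [← Nat.mod_add_div a N]
  rw [dia_update_add, mul_comm N, pow_mul', hN, one_pow, one_mul]

end Dia

section FinZMod

/-- The value of `(ZMod.finEquiv n).symm z` is `z.val`. -/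
theorem finEquiv_symm_val (n : ℕ) [NeZero n] (z : ZMod n) :
    (((ZMod.finEquiv n).symm z : Fin n) : ℕ) = z.val := by
  cases n with
  | zero => exact absurd rfl (NeZero.ne 0)
  | succ n => rfl

end FinZMod

section Basis

variable {𝒪 T V : Type*} [CommRing 𝒪] [CommRing T] [Algebra 𝒪 T] [AddCommGroup V] [Module T V]
  [Module 𝒪 V] [IsScalarTower 𝒪 T V]
variable {r : ℕ} {G : Fin r → Type*} [∀ j, CommGroup (G j)]

/-- The family `dia (g^e) b_i`. -/
def diaFamily (dia : (∀ j : Fin r, G j) →* Module.End T V) (g : ∀ j : Fin r, G j)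
    (N : Fin r → ℕ) {d : ℕ} (b : Fin d → V) : Fin d × (∀ j : Fin r, Fin (N j)) → V :=
  fun x => dia (fun j => g j ^ (x.2 j : ℕ)) (b x.1)

variable (dia : (∀ j : Fin r, G j) →* Module.End T V) (g : ∀ j : Fin r, G j)
  (N : Fin r → ℕ) {d : ℕ} (b : Fin d → V)
  (hb : ∀ y : V, ∃! c : Fin d → (∀ j : Fin r, Fin (N j)) → 𝒪,
      y = ∑ i, ∑ e, algebraMap 𝒪 T (c i e) • dia (fun j => g j ^ (e j : ℕ)) (b i))

include hb in
theorem diaFamily_linearIndependent : LinearIndependent 𝒪 (diaFamily dia g N b) := by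
  rw [Fintype.linearIndependent_iff]
  intro c hc
  obtain ⟨c₀, -, huniq⟩ := hb 0
  have h1 : (fun i e => c (i, e)) = c₀ := by
    apply huniq
    rw [← hc, Fintype.sum_prod_type]
    refine Finset.sum_congr rfl fun i _ => Finset.sum_congr rfl fun e _ => ?_
    rw [algebraMap_smul]
    rfl
  have h2 : (fun (_ : Fin d) (_ : ∀ j : Fin r, Fin (N j)) => (0 : 𝒪)) = c₀ := by
    apply huniq
    simp
  rintro ⟨i, e⟩
  have := congrFun (congrFun (h1.trans h2.symm) i) e
  exact this

include hb in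
theorem diaFamily_span : ⊤ ≤ Submodule.span 𝒪 (Set.range (diaFamily dia g N b)) := by
  intro y _
  obtain ⟨c, hc, -⟩ := hb y
  rw [hc]
  refine Submodule.sum_mem _ fun i _ => Submodule.sum_mem _ fun e _ => ?_
  rw [algebraMap_smul]
  exact Submodule.smul_mem _ _ (Submodule.subset_span ⟨(i, e), rfl⟩)

/-- The `𝒪`-basis `dia (g^e) b_i`. -/
noncomputable def diaBasis : Module.Basis (Fin d × (∀ j : Fin r, Fin (N j))) 𝒪 V :=
  Module.Basis.mk (diaFamily_linearIndependent dia g N b hb) (diaFamily_span dia g N b hb)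

theorem diaBasis_apply (x : Fin d × (∀ j : Fin r, Fin (N j))) :
    diaBasis dia g N b hb x = dia (fun j => g j ^ (x.2 j : ℕ)) (b x.1) := by
  unfold diaBasis
  rw [Module.Basis.mk_apply]
  rfl

end Basis

section Shift

variable {𝒪 T V : Type*} [CommRing 𝒪] [CommRing T] [Algebra 𝒪 T] [AddCommGroup V] [Module T V]
  [Module 𝒪 V] [IsScalarTower 𝒪 T V]
variable {r : ℕ} {G : Fin r → Type*} [∀ j, CommGroup (G j)]

/-- `Fin d × (A × B) ≃ A × (Fin d × B)`. -/
def swapEquiv (α β γ : Type*) : α × (β × γ) ≃ β × (α × γ) where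
  toFun x := (x.2.1, (x.1, x.2.2))
  invFun y := (y.2.1, (y.1, y.2.2))
  left_inv _ := rfl
  right_inv _ := rfl

/-- The index equivalence splitting off the exponent at `j₀`. -/
noncomputable def shiftEquiv (N : Fin r → ℕ) (d : ℕ) (j₀ : Fin r) [NeZero (N j₀)] :
    Fin d × (∀ j : Fin r, Fin (N j)) ≃
      ZMod (N j₀) × (Fin d × (∀ j : {j // j ≠ j₀}, Fin (N j))) :=
  ((Equiv.prodCongr (Equiv.refl (Fin d)) (Equiv.piSplitAt j₀ (fun j => Fin (N j)))).trans
    (swapEquiv _ _ _)).trans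
    (Equiv.prodCongr (ZMod.finEquiv (N j₀)).toEquiv (Equiv.refl _))

/-- The exponent vector (in `ℕ`) of the index `(z, e')`. -/
noncomputable def shiftExp (N : Fin r → ℕ) (j₀ : Fin r) [NeZero (N j₀)] (z : ZMod (N j₀))
    (e' : ∀ j : {j // j ≠ j₀}, Fin (N j)) : Fin r → ℕ :=
  fun j => (((Equiv.piSplitAt j₀ (fun j => Fin (N j))).symm
    ((ZMod.finEquiv (N j₀)).symm z, e') j : Fin (N j)) : ℕ)

theorem shiftExp_eq_update (N : Fin r → ℕ) (j₀ : Fin r) [NeZero (N j₀)] (z : ZMod (N j₀))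
    (e' : ∀ j : {j // j ≠ j₀}, Fin (N j)) :
    shiftExp N j₀ z e' = Function.update (shiftExp N j₀ 0 e') j₀ z.val := by
  funext j
  by_cases hj : j = j₀
  · subst hj
    rw [Function.update_self]
    unfold shiftExp
    rw [Equiv.piSplitAt_symm_apply]
    simp only [dif_pos]
    exact finEquiv_symm_val _ z
  · rw [Function.update_of_ne hj]
    unfold shiftExp
    rw [Equiv.piSplitAt_symm_apply, Equiv.piSplitAt_symm_apply]
    simp only [dif_neg hj]

variable (dia : (∀ j : Fin r, G j) →* Module.End T V) (g : ∀ j : Fin r, G j)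
  (N : Fin r → ℕ) {d : ℕ} (b : Fin d → V)
  (hb : ∀ y : V, ∃! c : Fin d → (∀ j : Fin r, Fin (N j)) → 𝒪,
      y = ∑ i, ∑ e, algebraMap 𝒪 T (c i e) • dia (fun j => g j ^ (e j : ℕ)) (b i))

/-- The shift basis at `j₀`. -/
noncomputable def shiftBasis (j₀ : Fin r) [NeZero (N j₀)] :
    Module.Basis (ZMod (N j₀) × (Fin d × (∀ j : {j // j ≠ j₀}, Fin (N j)))) 𝒪 V :=
  (diaBasis dia g N b hb).reindex (shiftEquiv N d j₀)

theorem shiftBasis_apply (j₀ : Fin r) [NeZero (N j₀)] (z : ZMod (N j₀)) (i : Fin d)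
    (e' : ∀ j : {j // j ≠ j₀}, Fin (N j)) :
    shiftBasis dia g N b hb j₀ (z, (i, e')) =
      dia (fun j => g j ^ shiftExp N j₀ z e' j) (b i) := by
  unfold shiftBasis
  rw [Module.Basis.reindex_apply, diaBasis_apply]
  rfl

theorem shiftBasis_shift (j₀ : Fin r) [NeZero (N j₀)]
    (hdia : dia (Pi.mulSingle j₀ (g j₀)) ^ (N j₀) = 1) (z : ZMod (N j₀))
    (k : Fin d × (∀ j : {j // j ≠ j₀}, Fin (N j))) :
    dia (Pi.mulSingle j₀ (g j₀)) (shiftBasis dia g N b hb j₀ (z, k)) =
      shiftBasis dia g N b hb j₀ (z + 1, k) := by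
  obtain ⟨i, e'⟩ := k
  rw [shiftBasis_apply, shiftBasis_apply, shiftExp_eq_update N j₀ z, shiftExp_eq_update N j₀ (z + 1)]
  have h1 : (z + 1).val = (z.val + 1) % N j₀ := by
    conv_lhs => rw [← ZMod.natCast_zmod_val z]
    rw [← Nat.cast_one (R := ZMod (N j₀)), ← Nat.cast_add, ZMod.val_natCast]
  rw [h1, ← dia_update_mod dia g _ j₀ (N j₀) hdia, dia_update_add dia g _ j₀ z.val 1, pow_one,
    Module.End.mul_apply]

end Shift

section Core

variable {𝒪 T V : Type*} [CommRing 𝒪] [CommRing T] [Algebra 𝒪 T] [AddCommGroup V] [Module T V]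
  [Module 𝒪 V] [IsScalarTower 𝒪 T V]
variable {r : ℕ} {G : Fin r → Type*} [∀ j, CommGroup (G j)]

theorem restrictScalars_pow_apply (X : Module.End T V) (k : ℕ) (v : V) :
    ((X.restrictScalars 𝒪) ^ k) v = (X ^ k) v := by
  induction k generalizing v with
  | zero => rfl
  | succ k ih =>
    rw [pow_succ, pow_succ, Module.End.mul_apply, Module.End.mul_apply, ih]
    rfl

theorem lsmul_pow_apply (w : T) (k : ℕ) (v : V) :
    (((LinearMap.lsmul T V w).restrictScalars 𝒪) ^ k) v = w ^ k • v := by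
  induction k generalizing v with
  | zero => simp
  | succ k ih =>
    rw [pow_succ, Module.End.mul_apply, ih, pow_succ, mul_smul]
    rfl

/-- **Core of CMPL.**  `V` is free over `𝒪[∏ ℤ/p^(m_j)]` through `dia` (basis `dia (g^e) b_i`),
`w w' = 1`, `w^(p^n') = 1` and `(w + w') y = X y + X⁻¹ y` on `V` for `X = dia (g_j₀)`.
Then `(w - 1) V = (X - 1) V`. -/
theorem cmp_core (p : ℕ) (hp : p.Prime) (hodd : Odd p) (h2 : IsUnit (2 : 𝒪))
    (hpO : ∀ a : 𝒪, p • a = 0 → a = 0) (m : Fin r → ℕ)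
    (dia : (∀ j : Fin r, G j) →* Module.End T V) (g : ∀ j : Fin r, G j)
    (hdia : ∀ j, dia (Pi.mulSingle j (g j)) ^ (p ^ m j) = 1)
    {d : ℕ} (b : Fin d → V)
    (hb : ∀ y : V, ∃! c : Fin d → (∀ j : Fin r, Fin (p ^ m j)) → 𝒪,
      y = ∑ i, ∑ e, algebraMap 𝒪 T (c i e) • dia (fun j => g j ^ (e j : ℕ)) (b i))
    (j₀ : Fin r) (w w' : T) (n' : ℕ) (hww' : w * w' = 1) (hw : w ^ (p ^ n') = 1)
    (hLgc : ∀ y : V, (w + w') • y =
      dia (Pi.mulSingle j₀ (g j₀)) y + dia (Pi.mulSingle j₀ (g j₀)⁻¹) y)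
    (y : V) :
    (∃ y' : V, y = w • y' - y') ↔ ∃ y' : V, y = dia (Pi.mulSingle j₀ (g j₀)) y' - y' := by
  haveI : NeZero (p ^ m j₀) := ⟨(pow_pos hp.pos _).ne'⟩
  set X₀ : Module.End T V := dia (Pi.mulSingle j₀ (g j₀)) with hX₀
  set X : Module.End 𝒪 V := X₀.restrictScalars 𝒪 with hXdef
  set Y : Module.End 𝒪 V := (LinearMap.lsmul T V w).restrictScalars 𝒪 with hYdef
  have hXv : ∀ v : V, X v = X₀ v := fun _ => rfl
  have hYv : ∀ v : V, Y v = w • v := fun _ => rfl
  have hinv : ∀ v : V, dia (Pi.mulSingle j₀ (g j₀)⁻¹) (X₀ v) = v := by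
    intro v
    rw [hX₀, ← Module.End.mul_apply, ← map_mul, ← Pi.mulSingle_mul, inv_mul_cancel,
      Pi.mulSingle_one, map_one, Module.End.one_apply]
  let B := shiftBasis (𝒪 := 𝒪) dia g (fun j => p ^ m j) b hb j₀
  have hshift : ∀ z k, X (B (z, k)) = B (z + 1, k) := fun z k =>
    shiftBasis_shift (𝒪 := 𝒪) dia g (fun j => p ^ m j) b hb j₀ (hdia j₀) z k
  have hXY : Commute X Y := by
    apply LinearMap.ext
    intro v
    rw [Module.End.mul_apply, Module.End.mul_apply, hYv, hXv, hXv, hYv, map_smul]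
  have hX : X ^ (p ^ m j₀) = 1 := by
    apply LinearMap.ext
    intro v
    rw [restrictScalars_pow_apply, hdia j₀]
    rfl
  have hY : Y ^ (p ^ n') = 1 := by
    apply LinearMap.ext
    intro v
    rw [lsmul_pow_apply, hw, one_smul]
    rfl
  have hrel : (Y - X) * (Y * X - 1) = 0 := by
    apply LinearMap.ext
    intro v
    have h := hLgc (X₀ v)
    rw [hinv] at h
    have h' := congrArg (fun u => w • u) h
    simp only [add_smul, smul_add, ← mul_smul, hww', one_smul] at h'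
    show w • (w • X₀ v - v) - X₀ (w • X₀ v - v) = 0
    rw [map_sub, map_smul, smul_sub, ← mul_smul]
    calc (w * w) • X₀ v - w • v - (w • X₀ (X₀ v) - X₀ v)
        = ((w * w) • X₀ v + X₀ v) - (w • X₀ (X₀ v) + w • v) := by abel
      _ = 0 := by rw [h', sub_self]
  have F0 : ∀ v : V, p • v = 0 → v = 0 := by
    intro v hv
    apply B.repr.injective
    rw [map_zero]
    ext x
    have := congrArg (fun f => B.repr f x) hv
    simp only [map_nsmul, map_zero, Finsupp.smul_apply, Finsupp.zero_apply] at this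
    exact hpO _ this
  have F2 := fun v hv => Fermat.Agent.S59.H525.shift_fixed_eq_norm B X hshift v hv
  have F3 := fun v hv => Fermat.Agent.S59.H525.shift_norm_eq_zero B X hshift v hv
  have hrange := Fermat.Agent.S59.H525.range_sub_one_eq_of_commute hp.pos hodd X Y hXY hX hY
    hrel h2 F0 F2 F3
  have hY1 : (∃ y' : V, y = w • y' - y') ↔ y ∈ LinearMap.range (Y - 1) := by
    rw [LinearMap.mem_range]
    constructor
    · rintro ⟨y', rfl⟩; exact ⟨y', rfl⟩
    · rintro ⟨y', rfl⟩; exact ⟨y', rfl⟩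
  have hX1 : (∃ y' : V, y = X₀ y' - y') ↔ y ∈ LinearMap.range (X - 1) := by
    rw [LinearMap.mem_range]
    constructor
    · rintro ⟨y', rfl⟩; exact ⟨y', rfl⟩
    · rintro ⟨y', rfl⟩; exact ⟨y', rfl⟩
  rw [hY1, hX1, hrange]

end Core

end Fermat.Agent.S59.TW.H427
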