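import Fermat.Agent.S59.TW.Spec
import Fermat.Agent.S59.TW.H427.CmpCore

/-!
# S59, cell TW, layer 2, LEAF CMPL (helper427): `TW.CmpOfLgcStatement`

Route LGC: the local–global compatibility `AutLevel.Lgc` (inertial type only) implies the
comparison `AutLevel.Cmp`, given INO.

Proof: INO at `A = T_Q` gives `w w' = 1`, `w^(p^m) = 1`, `charpoly ρ(σ) = (X - w)(X - w')`, hence
`tr ρ(σ) = w + w'`; `Lgc` turns this into `(w + w') y = X y + X⁻¹ y` on `M_Q` (`X = dia_j a`);
the two-structure lemma (`cmp_core`, on top of `H525.range_sub_one_eq_of_commute`) applies to the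
basis of `AutLevel.free` for a family of primitive roots `g` with `g_j = a`.
-/

set_option autoImplicit false
set_option linter.unusedSectionVars false
set_option linter.unusedVariables false
set_option linter.style.haveILetI false

open Polynomial IsLocalRing

namespace Fermat.Agent.S59.TW.H427

open Fermat.Agent.S59.Arch Fermat.Agent.S59.TW.H959 Fermat.Agent.S59.TW

section Trace

variable {A : Type*} [CommRing A] [Nontrivial A] {V : Type*} [AddCommGroup V] [Module A V]
  [Module.Free A V] [Module.Finite A V]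

/-- In rank `2`, `charpoly f = (X - a)(X - b)` implies `tr f = a + b`. -/
theorem trace_eq_add_of_charpoly (hrk : Module.finrank A V = 2) (f : Module.End A V) (a b : A)
    (h : LinearMap.charpoly f = (X - C a) * (X - C b)) : LinearMap.trace A V f = a + b := by
  classical
  have hcard : Fintype.card (Module.Free.ChooseBasisIndex A V) = 2 := by
    rw [← Module.finrank_eq_card_chooseBasisIndex, hrk]
  haveI : Nonempty (Module.Free.ChooseBasisIndex A V) := by
    rw [← Fintype.card_pos_iff, hcard]; norm_num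
  rw [LinearMap.trace_eq_matrix_trace A (Module.Free.chooseBasis A V) f,
    Matrix.trace_eq_neg_charpoly_coeff, hcard]
  have h' : (LinearMap.toMatrix (Module.Free.chooseBasis A V) (Module.Free.chooseBasis A V)
      f).charpoly = (X - C a) * (X - C b) := h
  rw [h']
  have : ((X - C a) * (X - C b) : A[X]).coeff (2 - 1) = -(a + b) := by
    rw [show (2 : ℕ) - 1 = 0 + 1 from rfl, coeff_X_sub_C_mul]
    simp
    ring
  rw [this, neg_neg]

end Trace

section Residual

variable {k : Type} [Field k]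

/-- Unramifiedness is invariant under equivalence. -/
theorem isUnramifiedAt_of_isEquiv {ρ₁ ρ₂ : ResidualGaloisRep k} (h : ρ₁.IsEquiv ρ₂) (q : ℕ)
    (h₂ : ρ₂.IsUnramifiedAt q) : ρ₁.IsUnramifiedAt q := by
  obtain ⟨e⟩ := h
  intro P hP σ hσ
  apply LinearMap.ext
  intro x
  apply e.toLinearEquiv.injective
  rw [e.map_apply, h₂ P hP σ hσ]
  rfl

/-- Unramifiedness is preserved by base change. -/
theorem isUnramifiedAt_baseChangeAlong {k' : Type} [Field k'] (ψ : k →+* k')
    (ρ : ResidualGaloisRep k) (q : ℕ) (h : ρ.IsUnramifiedAt q) :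
    (ρ.baseChangeAlong ψ).IsUnramifiedAt q := by
  intro P hP σ hσ
  letI : Algebra k k' := ψ.toAlgebra
  show (ρ.ρ σ).baseChange k' = 1
  rw [h P hP σ hσ, LinearMap.baseChange_one]

end Residual

section PrimitiveRoot

/-- A primitive root modulo a prime. -/
theorem exists_orderOf_eq_pred (q : ℕ) (hq : q.Prime) : ∃ g : (ZMod q)ˣ, orderOf g = q - 1 := by
  haveI : Fact q.Prime := ⟨hq⟩
  obtain ⟨g, hg⟩ := IsCyclic.exists_generator (α := (ZMod q)ˣ)
  refine ⟨g, ?_⟩
  rw [orderOf_eq_card_of_forall_mem_zpowers hg, Nat.card_eq_fintype_card, ZMod.card_units]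

end PrimitiveRoot

/-- **LEAF CMPL** of cell TW, layer 2 (`TW.CmpOfLgcStatement`, verbatim). -/
theorem cmpOfLgc : CmpOfLgcStatement := by
  intro hINO p _ hp2 𝒪 _ _ _ _ _ _ ρbar Smin h t _ P₀ M₀ _ _ n r qv hq _ PQ res A hLgc j P hP φ hφ
    σ hσ a ha hcyc a₀ w hw y
  have hp : p.Prime := Fact.out
  have hodd : Odd p := hp.odd_of_ne_two hp2
  -- arithmetic of the Taylor–Wiles prime
  obtain ⟨hqprime, hqS, hqdvd⟩ := hq.2.1 j
  have hqp : qv j ≠ p := fun hqp' => hqS (hqp' ▸ h.hpSmin)
  have hpq : p ∣ qv j - 1 := dvd_trans (dvd_pow_self p (Nat.succ_ne_zero n)) hqdvd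
  -- determinant
  have hdet : PQ.H.ρ.DetIsCyclotomic p := by
    have hc := PQ.hcond.1
    cases t with
    | flat => exact hc.1
    | sord => exact hc.1
    | ord => exact hc.1
  -- residual representation unramified at `q_j`
  have hunrbar : ρbar.IsUnramifiedAt (qv j) := by
    by_contra hram
    exact hqS ((h.hmin (qv j) hqprime hqp).mpr hram)
  have hunr : PQ.H.ρ.residual.IsUnramifiedAt (qv j) :=
    isUnramifiedAt_of_isEquiv PQ.hres _ (isUnramifiedAt_baseChangeAlong _ ρbar _ hunrbar)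
  haveI : Finite (ResidueField PQ.T) :=
    IsLocalRing.ResidueField.finite_of_finite (R := 𝒪) (S := PQ.T) inferInstance
  -- INO
  obtain ⟨w', hww', hwpow, hchar⟩ := hINO p PQ.T hdet.1 PQ.H.ρ hdet (qv j) hqprime hqp hpq hunr
    P hP φ hφ σ hσ a₀ w hw
  have htr : PQ.H.ρ.trace σ = w + w' :=
    trace_eq_add_of_charpoly PQ.H.ρ.finrank_eq _ w w' hchar
  -- a family of primitive roots with `g j = a`
  classical
  have hex : ∀ i : Fin r, ∃ g : (ZMod (qv i))ˣ, orderOf g = qv i - 1 := fun i =>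
    exists_orderOf_eq_pred (qv i) (hq.2.1 i).1
  choose g₀ hg₀ using hex
  set g : ∀ i : Fin r, (ZMod (qv i))ˣ := Function.update g₀ j a with hgdef
  have hgj : g j = a := Function.update_self j a g₀
  have hg : ∀ i, orderOf (g i) = qv i - 1 := by
    intro i
    by_cases hi : i = j
    · subst hi; rw [hgj]; exact ha
    · rw [hgdef, Function.update_of_ne hi]; exact hg₀ i
  obtain ⟨d, b, hb⟩ := A.free g hg
  -- the diamond operators have `p`-power order
  have hdia : ∀ i, A.dia (Pi.mulSingle i (g i)) ^ (p ^ padicValNat p (qv i - 1)) = 1 := by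
    intro i
    rw [← map_pow, ← A.dia_pow (Pi.mulSingle i (g i))]
    congr 1
    funext i'
    by_cases hi : i' = i
    · subst hi; simp
    · simp [Pi.mulSingle_eq_of_ne hi]
  -- the `𝒪`-structure
  letI : Module 𝒪 A.MQ := Module.compHom A.MQ (algebraMap 𝒪 PQ.T)
  haveI : IsScalarTower 𝒪 PQ.T A.MQ := ⟨fun c s x => by
    show (c • s) • x = (algebraMap 𝒪 PQ.T) c • s • x
    rw [Algebra.smul_def, mul_smul]⟩
  have h2 : IsUnit (2 : 𝒪) := by
    obtain ⟨m, hm⟩ := hodd
    by_contra hnu
    have h2m : (2 : 𝒪) ∈ maximalIdeal 𝒪 := (mem_maximalIdeal _).mpr hnu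
    have h1 : (1 : 𝒪) ∈ maximalIdeal 𝒪 := by
      have e : (1 : 𝒪) = (p : 𝒪) - 2 * (m : 𝒪) := by
        rw [hm]; push_cast; ring
      rw [e]
      exact Ideal.sub_mem _ h.hp𝒪 (Ideal.mul_mem_right _ _ h2m)
    exact (Ideal.ne_top_iff_one _).mp (maximalIdeal.isMaximal 𝒪).ne_top h1
  have hpO : ∀ c : 𝒪, p • c = 0 → c = 0 := by
    intro c hc
    rw [nsmul_eq_mul] at hc
    rcases mul_eq_zero.mp hc with h0 | h0
    · exact absurd h0 (Nat.cast_ne_zero.mpr hp.ne_zero)
    · exact h0
  have hL : ∀ y : A.MQ, (w + w') • y =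
      A.dia (Pi.mulSingle j (g j)) y + A.dia (Pi.mulSingle j (g j)⁻¹) y := by
    intro y
    rw [← htr, hgj]
    exact hLgc j P hP σ hσ a hcyc y
  have key := cmp_core (𝒪 := 𝒪) p hp hodd h2 hpO (fun i => padicValNat p (qv i - 1)) A.dia g hdia
    b hb j w w' _ hww' hwpow hL y
  rw [hgj] at key
  exact key

end Fermat.Agent.S59.TW.H427
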